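import Fermat.Agent.CoefficientSize.LowerBound
import Fermat.Agent.VoronoiSummation.Wilton
import Fermat.Agent.Poincare.Bound
import Mathlib.NumberTheory.ModularForms.NormTrace

/-!
# Consequences of the order of the mean square

Rankin's convergence range is exact, `a_n` is not `o(n^((k-1)/2))`, and, with a bound for the single
coefficient and Wilton's bound for the sum, real coefficients change sign often.
-/

set_option autoImplicit false

noncomputable section

namespace FA.CoefficientSize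

open UpperHalfPlane hiding I
open Complex CongruenceSubgroup Filter
open scoped MatrixGroups Real Topology

variable {N k : ℕ} [NeZero N]

theorem one_le_weight {f : CuspForm (Gamma0 N) (k : ℤ)} (hf : f ≠ 0) : 1 ≤ k := by
  by_contra h
  obtain rfl : k = 0 := by omega
  obtain ⟨v, hv⟩ := ModularForm.eq_const_of_weight_zero
    ({ toSlashInvariantForm := f.toSlashInvariantForm
       holo' := f.holo'
       bdd_at_cusps' := fun hc => ModularFormClass.bdd_at_cusps f hc } :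
      ModularForm (Gamma0 N) 0)
  have hv' : ∀ z : ℍ, f z = v := fun z => congrFun hv z
  have h0 := VoronoiSummation.coeff_eq_integral f 0 one_pos
  simp [VoronoiSummation.coeff_zero, hv'] at h0
  exact hf (DFunLike.ext _ _ fun z => by rw [hv', ← h0, zero_apply])

theorem not_summable_rpow {f : CuspForm (Gamma0 N) (k : ℤ)} (hf : f ≠ 0) {s : ℝ} (hs : s ≤ k) :
    ¬ Summable fun n : ℕ => ‖(qExpansion 1 f).coeff n‖ ^ 2 * (n : ℝ) ^ (-s) := by
  intro hsum
  obtain ⟨c, hc, hlow⟩ := mean_square_lower hf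
  set a : ℕ → ℝ := fun n => ‖(qExpansion 1 f).coeff n‖ ^ 2
  set b : ℕ → ℝ := fun n => a n * (n : ℝ) ^ (-(k : ℝ)) with hb
  have hb0 : ∀ n, 0 ≤ b n := fun n => by positivity
  have hbs : Summable b := by
    refine Summable.of_norm_bounded hsum fun n => ?_
    rw [Real.norm_of_nonneg (hb0 n)]
    rcases Nat.eq_zero_or_pos n with rfl | hn
    · simp [hb, a, VoronoiSummation.coeff_zero]
    · exact mul_le_mul_of_nonneg_left
        (Real.rpow_le_rpow_of_exponent_le (Nat.one_le_cast.2 hn) (neg_le_neg hs)) (sq_nonneg _)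
  have hab : ∀ n : ℕ, 1 ≤ n → a n = b n * (n : ℝ) ^ k := fun n hn => by
    have h0 : (0 : ℝ) < n := Nat.cast_pos.2 hn
    simp only [hb]
    rw [Real.rpow_neg h0.le, Real.rpow_natCast]
    field_simp
  obtain ⟨n₀, hn₀⟩ := Filter.eventually_atTop.1
    ((tendsto_sum_nat_add b).eventually (gt_mem_nhds (half_pos hc)))
  specialize hn₀ n₀ le_rfl
  have hbig : ∀ᶠ M : ℕ in atTop, (n₀ : ℝ) ^ k * ∑' n, b n < c / 2 * (M : ℝ) ^ k :=
    (((tendsto_pow_atTop (by have := one_le_weight hf; omega)).comp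
      tendsto_natCast_atTop_atTop).const_mul_atTop (half_pos hc)).eventually_gt_atTop _
  obtain ⟨M, hM, hMb, hMn⟩ := (hlow.and (hbig.and (eventually_ge_atTop n₀))).exists
  have hsplit : ∑ n ∈ Finset.Icc 1 M, a n ≤
      (n₀ : ℝ) ^ k * ∑' n, b n + c / 2 * (M : ℝ) ^ k := by
    rw [← Finset.sum_filter_add_sum_filter_not (Finset.Icc 1 M) (· < n₀)]
    refine add_le_add ?_ ?_
    · refine le_trans (Finset.sum_le_sum (g := fun n => (n₀ : ℝ) ^ k * b n) fun n hn => ?_) ?_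
      · simp only [Finset.mem_filter, Finset.mem_Icc] at hn
        rw [hab n hn.1.1, mul_comm]
        exact mul_le_mul_of_nonneg_right
          (pow_le_pow_left₀ (Nat.cast_nonneg n) (Nat.cast_le.2 hn.2.le) k) (hb0 n)
      · rw [← Finset.mul_sum]
        exact mul_le_mul_of_nonneg_left (hbs.sum_le_tsum _ fun n _ => hb0 n) (by positivity)
    · refine le_trans (Finset.sum_le_sum (g := fun n => (M : ℝ) ^ k * b n) fun n hn => ?_) ?_
      · simp only [Finset.mem_filter, Finset.mem_Icc] at hn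
        rw [hab n hn.1.1, mul_comm]
        exact mul_le_mul_of_nonneg_right
          (pow_le_pow_left₀ (Nat.cast_nonneg n) (Nat.cast_le.2 hn.1.2) k) (hb0 n)
      · rw [← Finset.mul_sum, mul_comm (c / 2)]
        refine mul_le_mul_of_nonneg_left (le_trans ?_ hn₀.le) (by positivity)
        have hinj : Function.Injective fun i => i + n₀ := add_left_injective n₀
        calc ∑ n ∈ Finset.filter (fun n => ¬n < n₀) (Finset.Icc 1 M), b n
            ≤ ∑ n ∈ (Finset.range (M + 1)).image (fun i => i + n₀), b n := by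
              refine Finset.sum_le_sum_of_subset_of_nonneg (fun n hn => ?_) fun n _ _ => hb0 n
              simp only [Finset.mem_filter, Finset.mem_Icc] at hn
              exact Finset.mem_image.2 ⟨n - n₀, Finset.mem_range.2 (by omega), by omega⟩
          _ = ∑ i ∈ Finset.range (M + 1), b (i + n₀) := Finset.sum_image hinj.injOn
          _ ≤ _ := (hbs.comp_injective hinj).sum_le_tsum _ fun n _ => hb0 _
  linarith

theorem frequently_coeff_ge {f : CuspForm (Gamma0 N) (k : ℤ)} (hf : f ≠ 0) :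
    ∃ c : ℝ, 0 < c ∧
      ∃ᶠ n : ℕ in atTop, c * (n : ℝ) ^ (((k : ℝ) - 1) / 2) ≤ ‖(qExpansion 1 f).coeff n‖ := by
  obtain ⟨c, hc, hlow⟩ := mean_square_lower hf
  have hk := one_le_weight hf
  refine ⟨√(c / 2), by positivity, fun hev => ?_⟩
  obtain ⟨n₀, hn₀⟩ := eventually_atTop.1 hev
  set a : ℕ → ℝ := fun n => ‖(qExpansion 1 f).coeff n‖ ^ 2
  have hbig : ∀ᶠ M : ℕ in atTop, ∑ n ∈ Finset.range n₀, a n < c / 2 * (M : ℝ) ^ k :=
    (((tendsto_pow_atTop (by omega)).comp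
      tendsto_natCast_atTop_atTop).const_mul_atTop (half_pos hc)).eventually_gt_atTop _
  obtain ⟨M, hM, hMb⟩ := (hlow.and hbig).exists
  have hle : ∀ n ∈ Finset.Icc 1 M, n₀ ≤ n → a n ≤ c / 2 * (M : ℝ) ^ (k - 1) := by
    intro n hn hn'
    rw [Finset.mem_Icc] at hn
    have h0 : (0 : ℝ) ≤ n := Nat.cast_nonneg n
    refine (pow_le_pow_left₀ (norm_nonneg _) (not_le.1 (hn₀ n hn')).le 2).trans ?_
    rw [mul_pow, Real.sq_sqrt (by positivity), ← Real.rpow_natCast _ 2, ← Real.rpow_mul h0,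
      Nat.cast_ofNat, div_mul_cancel₀ _ two_ne_zero,
      show (k : ℝ) - 1 = ((k - 1 : ℕ) : ℝ) by push_cast [hk]; ring,
      Real.rpow_natCast]
    exact mul_le_mul_of_nonneg_left (pow_le_pow_left₀ h0 (Nat.cast_le.2 hn.2) _) (by positivity)
  have hsplit : ∑ n ∈ Finset.Icc 1 M, a n ≤
      ∑ n ∈ Finset.range n₀, a n + (M : ℝ) * (c / 2 * (M : ℝ) ^ (k - 1)) := by
    rw [← Finset.sum_filter_add_sum_filter_not (Finset.Icc 1 M) (· < n₀)]
    refine add_le_add (Finset.sum_le_sum_of_subset_of_nonneg (fun n hn => ?_)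
      fun n _ _ => sq_nonneg _) ((Finset.sum_le_card_nsmul _ _ (c / 2 * (M : ℝ) ^ (k - 1))
        fun n hn => ?_).trans ?_)
    · simp only [Finset.mem_filter] at hn
      exact Finset.mem_range.2 hn.2
    · simp only [Finset.mem_filter, not_lt] at hn
      exact hle n hn.1 hn.2
    · rw [nsmul_eq_mul]
      refine mul_le_mul_of_nonneg_right ?_ (by positivity)
      exact_mod_cast (Finset.card_filter_le _ _).trans_eq (by simp)
  have e : (M : ℝ) * (M : ℝ) ^ (k - 1) = (M : ℝ) ^ k := by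
    rw [← pow_succ', Nat.sub_add_cancel hk]
  rw [mul_left_comm, e] at hsplit
  linarith

theorem mean_abs_lower (hk : 3 ≤ k) {f : CuspForm (Gamma0 N) (k : ℤ)} (hf : f ≠ 0) :
    ∃ K c : ℝ, 0 < K ∧ 0 < c ∧
      (∀ᶠ M : ℕ in atTop,
        c * ((M : ℝ) ^ ((k : ℝ) / 2 + 1 / 4) / Real.log M ^ 6) ≤
          ∑ n ∈ Finset.Icc 1 M, ‖(qExpansion 1 f).coeff n‖) ∧
      ∀ᶠ M : ℕ in atTop, ∀ n ∈ Finset.Icc 1 M,
        ‖(qExpansion 1 f).coeff n‖ ≤ K * ((M : ℝ) ^ ((k : ℝ) / 2 - 1 / 4) * Real.log M ^ 6) := by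
  obtain ⟨c, hc, hlow⟩ := mean_square_lower hf
  obtain ⟨C, hC⟩ := Poincare.isKloostermanBounded (k := (k : ℤ)) (by omega) f
  set K : ℝ := 2 ^ 6 * max C 1 with hK
  have hmax : ∀ M : ℕ, 3 ≤ M → ∀ n ∈ Finset.Icc 1 M,
      ‖(qExpansion 1 f).coeff n‖ ≤ K * ((M : ℝ) ^ ((k : ℝ) / 2 - 1 / 4) * Real.log M ^ 6) := by
    intro M hM n hn
    rw [Finset.mem_Icc] at hn
    have hn1 : (1 : ℝ) ≤ n := Nat.one_le_cast.2 hn.1
    have hnM : (n : ℝ) ≤ M := Nat.cast_le.2 hn.2
    have hM3 : (3 : ℝ) ≤ M := by exact_mod_cast hM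
    have hlog : 1 ≤ Real.log M := by
      rw [Real.le_log_iff_exp_le (by linarith)]
      exact Real.exp_one_lt_three.le.trans hM3
    have hexp : 0 ≤ (k : ℝ) / 2 - 1 / 4 := by
      have : (3 : ℝ) ≤ k := by exact_mod_cast hk
      linarith
    have hL : 0 ≤ 1 + Real.log n := by linarith [Real.log_nonneg hn1]
    have h := hC n hn.1
    simp only [Int.cast_natCast] at h
    refine h.trans ?_
    calc C * (n : ℝ) ^ ((k : ℝ) / 2 - 1 / 4) * (1 + Real.log n) ^ 6
        ≤ max C 1 * (M : ℝ) ^ ((k : ℝ) / 2 - 1 / 4) * (2 * Real.log M) ^ 6 := by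
          gcongr
          · exact le_max_left _ _
          · linarith [Real.log_le_log (by linarith : (0 : ℝ) < n) hnM]
      _ = _ := by rw [hK]; ring
  refine ⟨K, c / K, by positivity, by positivity, ?_, ?_⟩
  · filter_upwards [hlow, eventually_ge_atTop 3] with M hM hM3
    have hM0 : (0 : ℝ) < M := Nat.cast_pos.2 (by omega)
    have hlog : 0 < Real.log M := Real.log_pos (by exact_mod_cast (by omega : 1 < M))
    have h : c * (M : ℝ) ^ k ≤ K * ((M : ℝ) ^ ((k : ℝ) / 2 - 1 / 4) * Real.log M ^ 6) *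
        ∑ n ∈ Finset.Icc 1 M, ‖(qExpansion 1 f).coeff n‖ := by
      refine hM.trans ?_
      rw [Finset.mul_sum]
      refine Finset.sum_le_sum fun n hn => ?_
      rw [sq]
      exact mul_le_mul_of_nonneg_right (hmax M hM3 n hn) (norm_nonneg _)
    have e : (M : ℝ) ^ k = (M : ℝ) ^ ((k : ℝ) / 2 + 1 / 4) * (M : ℝ) ^ ((k : ℝ) / 2 - 1 / 4) := by
      rw [← Real.rpow_add hM0, ← Real.rpow_natCast]
      ring_nf
    rw [e] at h
    rw [← mul_div_assoc, div_le_iff₀ (by positivity)]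
    refine le_of_mul_le_mul_left ?_
      (show 0 < K * (M : ℝ) ^ ((k : ℝ) / 2 - 1 / 4) by positivity)
    calc K * (M : ℝ) ^ ((k : ℝ) / 2 - 1 / 4) * (c / K * (M : ℝ) ^ ((k : ℝ) / 2 + 1 / 4))
        = c * (K / K) * ((M : ℝ) ^ ((k : ℝ) / 2 + 1 / 4) * (M : ℝ) ^ ((k : ℝ) / 2 - 1 / 4)) := by
          ring
      _ = c * ((M : ℝ) ^ ((k : ℝ) / 2 + 1 / 4) * (M : ℝ) ^ ((k : ℝ) / 2 - 1 / 4)) := by
          rw [div_self (by positivity), mul_one]
      _ ≤ _ := h
      _ = _ := by ring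
  · filter_upwards [eventually_ge_atTop 3] with M hM using hmax M hM

/-- Count the positive terms. -/
theorem count_pos_lower {r : ℕ → ℝ} {κ K c C : ℝ} (hK : 0 < K) (hc : 0 < c)
    (hmax : ∀ᶠ M : ℕ in atTop, ∀ n ∈ Finset.Icc 1 M,
      |r n| ≤ K * ((M : ℝ) ^ (κ - 1 / 4) * Real.log M ^ 6))
    (habs : ∀ᶠ M : ℕ in atTop,
      c * ((M : ℝ) ^ (κ + 1 / 4) / Real.log M ^ 6) ≤ ∑ n ∈ Finset.Icc 1 M, |r n|)
    (hsum : ∀ᶠ M : ℕ in atTop,
      |∑ n ∈ Finset.Icc 1 M, r n| ≤ C * (M : ℝ) ^ κ * Real.log M) :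
    ∃ c' : ℝ, 0 < c' ∧ ∀ᶠ M : ℕ in atTop,
      c' * ((M : ℝ) ^ (1 / 2 : ℝ) / Real.log M ^ 12) ≤
        (((Finset.Icc 1 M).filter fun n => 0 < r n).card : ℝ) := by
  refine ⟨c / (4 * K), by positivity, ?_⟩
  have hsmall : ∀ᶠ M : ℕ in atTop, |C| * Real.log M ^ (7 : ℝ) ≤ c / 2 * (M : ℝ) ^ (1 / 4 : ℝ) := by
    filter_upwards [tendsto_natCast_atTop_atTop.eventually
      ((isLittleO_log_rpow_rpow_atTop 7 (by norm_num : (0 : ℝ) < 1 / 4)).def
        (show 0 < c / 2 / (|C| + 1) by positivity)), eventually_ge_atTop 1] with M hM hM1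
    have hl : 0 ≤ Real.log M := Real.log_nonneg (Nat.one_le_cast.2 hM1)
    rw [Real.norm_of_nonneg (Real.rpow_nonneg hl _), Real.norm_of_nonneg (by positivity),
      div_mul_eq_mul_div, le_div_iff₀ (by positivity)] at hM
    nlinarith [Real.rpow_nonneg hl (7 : ℝ)]
  filter_upwards [hmax, habs, hsum, hsmall, eventually_ge_atTop 3] with M hm ha hs hl hM3
  have hM0 : (0 : ℝ) < M := Nat.cast_pos.2 (by omega)
  have hlog : 0 < Real.log M := Real.log_pos (by exact_mod_cast (by omega : 1 < M))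
  set P := (Finset.Icc 1 M).filter fun n => 0 < r n
  have h1 : ∑ n ∈ P, r n ≤ P.card * (K * ((M : ℝ) ^ (κ - 1 / 4) * Real.log M ^ 6)) := by
    rw [← nsmul_eq_mul]
    exact Finset.sum_le_card_nsmul _ _ _ fun n hn =>
      (le_abs_self _).trans (hm n (Finset.mem_filter.1 hn).1)
  have h2 : ∑ n ∈ Finset.Icc 1 M, (|r n| + r n) = 2 * ∑ n ∈ P, r n := by
    rw [Finset.mul_sum, Finset.sum_filter]
    refine Finset.sum_congr rfl fun n _ => ?_
    split_ifs with h
    · rw [abs_of_pos h]; ring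
    · rw [abs_of_nonpos (not_lt.1 h)]; ring
  rw [Finset.sum_add_distrib] at h2
  have h3 : C * (M : ℝ) ^ κ * Real.log M ≤
      c / 2 * ((M : ℝ) ^ (κ + 1 / 4) / Real.log M ^ 6) := by
    rw [Real.rpow_ofNat] at hl
    rw [Real.rpow_add hM0, ← mul_div_assoc, le_div_iff₀ (by positivity)]
    calc C * (M : ℝ) ^ κ * Real.log M * Real.log M ^ 6
        ≤ |C| * Real.log M ^ 7 * (M : ℝ) ^ κ := by
          rw [show |C| * Real.log M ^ 7 * (M : ℝ) ^ κ =
            |C| * ((M : ℝ) ^ κ * Real.log M * Real.log M ^ 6) by ring, mul_assoc, mul_assoc,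
            ← mul_assoc ((M : ℝ) ^ κ)]
          exact mul_le_mul_of_nonneg_right (le_abs_self C) (by positivity)
      _ ≤ c / 2 * (M : ℝ) ^ (1 / 4 : ℝ) * (M : ℝ) ^ κ :=
          mul_le_mul_of_nonneg_right hl (by positivity)
      _ = _ := by ring
  have h4 : c / 4 * ((M : ℝ) ^ (κ + 1 / 4) / Real.log M ^ 6) ≤
      P.card * (K * ((M : ℝ) ^ (κ - 1 / 4) * Real.log M ^ 6)) := by
    linarith [neg_le_of_abs_le hs]
  refine le_of_mul_le_mul_right ?_
    (show 0 < K * ((M : ℝ) ^ (κ - 1 / 4) * Real.log M ^ 6) by positivity)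
  refine le_of_eq_of_le ?_ h4
  rw [show κ + 1 / 4 = 1 / 2 + (κ - 1 / 4) by ring, Real.rpow_add hM0]
  field_simp

theorem sign_count_lower (hk : 3 ≤ k) {f : CuspForm (Gamma0 N) (k : ℤ)} (hf : f ≠ 0)
    {r : ℕ → ℝ} (hr : ∀ n, (qExpansion 1 f).coeff n = (r n : ℂ)) :
    ∃ c : ℝ, 0 < c ∧ ∀ᶠ M : ℕ in atTop,
      c * ((M : ℝ) ^ (1 / 2 : ℝ) / Real.log M ^ 12) ≤
          (((Finset.Icc 1 M).filter fun n => 0 < r n).card : ℝ) ∧
        c * ((M : ℝ) ^ (1 / 2 : ℝ) / Real.log M ^ 12) ≤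
          (((Finset.Icc 1 M).filter fun n => r n < 0).card : ℝ) := by
  obtain ⟨K, c, hK, hc, habs, hmax⟩ := mean_abs_lower hk hf
  obtain ⟨C, -, hC⟩ := VoronoiSummation.wilton_bound f
  have hn : ∀ n, ‖(qExpansion 1 f).coeff n‖ = |r n| := fun n => by
    rw [hr n, norm_real, Real.norm_eq_abs]
  simp only [hn] at habs hmax
  have hsum : ∀ᶠ M : ℕ in atTop, |∑ n ∈ Finset.Icc 1 M, r n| ≤
      C * (M : ℝ) ^ ((k : ℝ) / 2) * Real.log M := by
    filter_upwards [eventually_ge_atTop 2] with M hM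
    have h := hC 0 M hM
    simp only [hr, ofReal_zero, mul_zero, Complex.exp_zero, mul_one, Int.cast_natCast] at h
    rwa [← ofReal_sum, norm_real, Real.norm_eq_abs] at h
  obtain ⟨c₁, hc₁, h₁⟩ := count_pos_lower hK hc hmax habs hsum
  obtain ⟨c₂, hc₂, h₂⟩ := count_pos_lower (r := fun n => -r n) hK hc (C := C)
    (by simpa only [abs_neg] using hmax) (by simpa only [abs_neg] using habs)
    (by simpa only [Finset.sum_neg_distrib, abs_neg] using hsum)
  simp only [neg_pos] at h₂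
  refine ⟨min c₁ c₂, lt_min hc₁ hc₂, ?_⟩
  filter_upwards [h₁, h₂, eventually_ge_atTop 1] with M e₁ e₂ hM
  have h0 : 0 ≤ (M : ℝ) ^ (1 / 2 : ℝ) / Real.log M ^ 12 :=
    div_nonneg (by positivity) (pow_nonneg (Real.log_nonneg (Nat.one_le_cast.2 hM)) _)
  exact ⟨(mul_le_mul_of_nonneg_right (min_le_left _ _) h0).trans e₁,
    (mul_le_mul_of_nonneg_right (min_le_right _ _) h0).trans e₂⟩

theorem infinite_of_count {s : Set ℕ} [DecidablePred (· ∈ s)] {c : ℝ} (hc : 0 < c)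
    (h : ∀ᶠ M : ℕ in atTop, c * ((M : ℝ) ^ (1 / 2 : ℝ) / Real.log M ^ 12) ≤
      (((Finset.Icc 1 M).filter fun n => n ∈ s).card : ℝ)) : s.Infinite := by
  intro hs
  have hbig : ∀ᶠ M : ℕ in atTop,
      ((hs.toFinset.card : ℝ) + 1) / c * Real.log M ^ (12 : ℝ) ≤ (M : ℝ) ^ (1 / 2 : ℝ) := by
    filter_upwards [tendsto_natCast_atTop_atTop.eventually
      ((isLittleO_log_rpow_rpow_atTop 12 (by norm_num : (0 : ℝ) < 1 / 2)).def
        (show 0 < c / ((hs.toFinset.card : ℝ) + 1) by positivity)),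
      eventually_ge_atTop 1] with M hM hM1
    have hl : 0 ≤ Real.log M := Real.log_nonneg (Nat.one_le_cast.2 hM1)
    rw [Real.norm_of_nonneg (Real.rpow_nonneg hl _), Real.norm_of_nonneg (by positivity),
      div_mul_eq_mul_div, le_div_iff₀ (by positivity)] at hM
    rw [div_mul_eq_mul_div, div_le_iff₀ hc]
    linarith
  obtain ⟨M, hM, hMb, hM2⟩ := (h.and (hbig.and (eventually_ge_atTop 2))).exists
  have hlog : 0 < Real.log M := Real.log_pos (by exact_mod_cast (by omega : 1 < M))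
  have hcard : (((Finset.Icc 1 M).filter fun n => n ∈ s).card : ℝ) ≤ hs.toFinset.card :=
    Nat.cast_le.2 (Finset.card_le_card fun n hn => hs.mem_toFinset.2 (Finset.mem_filter.1 hn).2)
  rw [Real.rpow_ofNat] at hMb
  rw [mul_div_assoc', div_le_iff₀ (by positivity)] at hM
  rw [div_mul_eq_mul_div, div_le_iff₀ hc] at hMb
  nlinarith [pow_pos hlog 12]

end FA.CoefficientSize

end
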