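import Mathlib.Data.Nat.Totient
import Mathlib.Data.Nat.Factorization.Basic
import Mathlib.NumberTheory.Harmonic.Bounds
import Mathlib.Analysis.PSeries
import Mathlib.Analysis.SpecialFunctions.Log.Monotone
import Mathlib.Analysis.SpecialFunctions.Pow.Asymptotics

/-!
# The average of Euler's function from below

`∑_{M < m ≤ 2M} φ(m) ≥ M² / 8` for large `M`: discard the pairs with a common prime.
-/

set_option autoImplicit false

namespace FA.CoefficientSize

open Finset Filter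
open scoped Topology

theorem card_filter_dvd_upper (M p : ℕ) (hp : 0 < p) :
    ((((Ioc M (2 * M)).filter fun m => p ∣ m).card : ℕ) : ℝ) ≤ (M : ℝ) / p + 1 := by
  have hsub : ((Ioc M (2 * M)).filter fun m => p ∣ m) =
      ((Ioc 0 (2 * M)).filter fun m => p ∣ m) \ ((Ioc 0 M).filter fun m => p ∣ m) := by
    ext m
    simp only [Finset.mem_sdiff, mem_filter, mem_Ioc]
    constructor
    · rintro ⟨⟨h1, h2⟩, h3⟩
      exact ⟨⟨⟨by omega, h2⟩, h3⟩, fun h => by omega⟩
    · rintro ⟨⟨⟨h1, h2⟩, h3⟩, h4⟩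
      exact ⟨⟨by by_contra h; exact h4 ⟨⟨h1, by omega⟩, h3⟩, h2⟩, h3⟩
  have hcard : ((Ioc M (2 * M)).filter fun m => p ∣ m).card = 2 * M / p - M / p := by
    rw [hsub, card_sdiff_of_subset (filter_subset_filter _ (Ioc_subset_Ioc_right (by omega))),
      Nat.Ioc_filter_dvd_card_eq_div, Nat.Ioc_filter_dvd_card_eq_div]
  have hle : 2 * M / p ≤ M / p + (M / p + 1) := by
    have h1 := Nat.lt_mul_div_succ M hp
    refine Nat.lt_succ_iff.1 ((Nat.div_lt_iff_lt_mul hp).2 ?_)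
    nlinarith
  rw [hcard]
  obtain ⟨B, hB⟩ : ∃ B, M / p = B := ⟨_, rfl⟩
  rw [hB] at hle ⊢
  calc (((2 * M / p - B : ℕ)) : ℝ) ≤ ((B + 1 : ℕ) : ℝ) := Nat.cast_le.2 (by omega)
    _ ≤ _ := by
        rw [← hB]
        push_cast
        gcongr
        exact Nat.cast_div_le

theorem eventually_sum_totient_ge :
    ∀ᶠ M : ℕ in atTop, (M : ℝ) ^ 2 / 8 ≤ ∑ m ∈ Ioc M (2 * M), (m.totient : ℝ) := by
  have hlog : ∀ᶠ M : ℕ in atTop, 1 + Real.log M ≤ (M : ℝ) / 8 := by
    have h := (Real.isLittleO_log_id_atTop.def (by norm_num : (0 : ℝ) < 1 / 16)).and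
      (eventually_ge_atTop (16 : ℝ))
    filter_upwards [tendsto_natCast_atTop_atTop.eventually h] with M hM
    obtain ⟨h1, h2⟩ := hM
    simp only [id, Real.norm_eq_abs] at h1
    rw [abs_of_nonneg (by linarith : (0 : ℝ) ≤ M)] at h1
    linarith [le_abs_self (Real.log M)]
  filter_upwards [hlog, eventually_ge_atTop 2] with M hM hM2
  set P := (Ioc 1 M).filter Nat.Prime with hP
  set S := Ioc M (2 * M) ×ˢ Ioc 0 M with hS
  set bad := P.biUnion fun p =>
    ((Ioc M (2 * M)).filter fun m => p ∣ m) ×ˢ ((Ioc 0 M).filter fun a => p ∣ a) with hbad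
  set good := S.filter fun q => Nat.Coprime q.1 q.2 with hgood
  have hcover : S ⊆ good ∪ bad := by
    rintro ⟨m, a⟩ hq
    simp only [hS, mem_product] at hq
    by_cases hc : Nat.Coprime m a
    · exact mem_union_left _ (mem_filter.2 ⟨mem_product.2 hq, hc⟩)
    · obtain ⟨p, hp, hpm, hpa⟩ := Nat.Prime.not_coprime_iff_dvd.1 hc
      have hle : p ≤ M := (Nat.le_of_dvd (mem_Ioc.1 hq.2).1 hpa).trans (mem_Ioc.1 hq.2).2
      exact mem_union_right _ (mem_biUnion.2 ⟨p, mem_filter.2 ⟨mem_Ioc.2 ⟨hp.one_lt, hle⟩, hp⟩,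
        mem_product.2 ⟨mem_filter.2 ⟨hq.1, hpm⟩, mem_filter.2 ⟨hq.2, hpa⟩⟩⟩)
  have hSc : (S.card : ℝ) = (M : ℝ) ^ 2 := by
    rw [hS, card_product, Nat.card_Ioc, Nat.card_Ioc, Nat.sub_zero, show 2 * M - M = M by omega]
    push_cast
    ring
  have hgc : (good.card : ℝ) ≤ ∑ m ∈ Ioc M (2 * M), (m.totient : ℝ) := by
    have h1 : good.card ≤ ∑ m ∈ Ioc M (2 * M), ((Ioc 0 M).filter fun a => m.Coprime a).card := by
      rw [hgood, hS, card_filter, sum_product]
      exact le_of_eq (sum_congr rfl fun m _ => (card_filter _ _).symm)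
    refine le_trans (Nat.cast_le.2 h1) ?_
    push_cast
    refine sum_le_sum fun m hm => Nat.cast_le.2 ?_
    rw [Nat.totient_eq_card_coprime]
    refine card_le_card fun a ha => ?_
    simp only [mem_filter, mem_Ioc, mem_range] at ha hm ⊢
    exact ⟨by omega, ha.2⟩
  have hbc : (bad.card : ℝ) ≤
      ∑ p ∈ Ioc 1 M, ((M : ℝ) ^ 2 * ((p : ℝ) ^ 2)⁻¹ + M * (p : ℝ)⁻¹) := by
    refine le_trans (Nat.cast_le.2 card_biUnion_le) ?_
    push_cast
    refine le_trans (sum_le_sum fun p hp => ?_)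
      (sum_le_sum_of_subset_of_nonneg (filter_subset _ _) fun p _ _ => by positivity)
    have hp0 : 0 < p := (mem_filter.1 hp).2.pos
    rw [card_product, Nat.Ioc_filter_dvd_card_eq_div]
    push_cast
    calc ((((Ioc M (2 * M)).filter fun m => p ∣ m).card : ℕ) : ℝ) * ((M / p : ℕ) : ℝ)
        ≤ ((M : ℝ) / p + 1) * ((M : ℝ) / p) :=
          mul_le_mul (card_filter_dvd_upper M p hp0) Nat.cast_div_le (Nat.cast_nonneg _)
            (by positivity)
      _ = _ := by ring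
  have hsq : ∑ p ∈ Ioc 1 M, ((p : ℝ) ^ 2)⁻¹ ≤ 3 / 4 := by
    rw [← Ioc_union_Ioc_eq_Ioc (by norm_num : 1 ≤ 2) hM2,
      sum_union (Ioc_disjoint_Ioc_of_le le_rfl)]
    have h := sum_Ioc_inv_sq_le_sub (α := ℝ) (two_ne_zero) hM2
    have h0 : (0 : ℝ) ≤ (M : ℝ)⁻¹ := by positivity
    simp only [show Ioc 1 2 = ({2} : Finset ℕ) from rfl, sum_singleton]
    norm_num at h ⊢
    linarith
  have hharm : ∑ p ∈ Ioc 1 M, (p : ℝ)⁻¹ ≤ 1 + Real.log M := by
    have h : ((harmonic M : ℚ) : ℝ) ≤ 1 + Real.log M := harmonic_le_one_add_log M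
    rw [harmonic_eq_sum_Icc] at h
    push_cast at h
    refine le_trans (sum_le_sum_of_subset_of_nonneg (fun p hp => ?_) fun p _ _ => by positivity) h
    simp only [mem_Ioc, mem_Icc] at hp ⊢
    omega
  have htot : (S.card : ℝ) ≤ good.card + bad.card := by
    exact_mod_cast (card_le_card hcover).trans (card_union_le _ _)
  rw [sum_add_distrib, ← mul_sum, ← mul_sum] at hbc
  have e1 := mul_le_mul_of_nonneg_left hsq (sq_nonneg (M : ℝ))
  have e2 := mul_le_mul_of_nonneg_left (hharm.trans hM) (Nat.cast_nonneg M : (0 : ℝ) ≤ M)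
  nlinarith

end FA.CoefficientSize
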