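import Fermat.Agent.VoronoiSummation.Main
import Fermat.Agent.CoefficientSize.Totient
import Mathlib.Analysis.Analytic.IsolatedZeros
import Mathlib.Analysis.Complex.CauchyIntegral
import Mathlib.Analysis.Convex.PathConnected
import Mathlib.Analysis.Complex.Convex

/-!
# The mean square from below

Near `a/c`, `c² y ≍ 1`, modularity makes `y^(k-1) ∫ |f(a/c + u + i y)|² du` a positive continuous
function of bounded parameters; there are `≫ 1/y` such disjoint intervals, so `∫_0^1 |f|² ≫ y^(-k)`.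
-/

set_option autoImplicit false

noncomputable section

namespace FA.CoefficientSize

open UpperHalfPlane hiding I
open Complex CongruenceSubgroup MeasureTheory Filter
open scoped MatrixGroups Real Topology ModularForm

variable {N k : ℕ}

theorem even_of_ne_zero {f : CuspForm (Gamma0 N) (k : ℤ)} (hf : f ≠ 0) : Even k := by
  by_contra hk
  rw [Nat.not_even_iff_odd] at hk
  refine hf (DFunLike.ext _ _ fun z => ?_)
  have hmem : (-1 : SL(2, ℤ)) ∈ Gamma0 N := by
    rw [Poincare.mem_Gamma0_iff]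
    simp
  have h := congrFun (Poincare.slash_of_mem f hmem) z
  rw [ModularForm.SL_slash_apply, ModularGroup.SL_neg_smul, one_smul, ModularGroup.denom_apply] at h
  simp [hk.neg_one_pow] at h
  rw [zero_apply]
  linear_combination (-1 / 2 : ℂ) * h

/-- The point on the arc dual to `a/c + y v + i y`, where `x = -d/c` and `ρ = c² y`. -/
def arcPoint (x ρ v : ℝ) : ℂ := x - 1 / (ρ * Poincare.pt v 1)

theorem arcPoint_im_pos (x : ℝ) {ρ : ℝ} (hη : 0 < ρ) (v : ℝ) : 0 < (arcPoint x ρ v).im := by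
  rw [arcPoint, one_div, sub_im, ofReal_im, Complex.inv_im, im_ofReal_mul]
  have h : 0 < normSq ((ρ : ℂ) * Poincare.pt v 1) :=
    normSq_pos.2 (mul_ne_zero (ofReal_ne_zero.2 hη.ne') (Poincare.pt_ne_zero one_pos))
  have h1 : (Poincare.pt v 1).im = 1 := by simp [Poincare.pt]
  rw [h1, mul_one, zero_sub, neg_pos]
  exact div_neg_of_neg_of_pos (by linarith) h

/-- The local integral. -/
def localMass (f : CuspForm (Gamma0 N) (k : ℤ)) (p : ℝ × ℝ) : ℝ :=
  ∫ v in (-1 : ℝ)..1,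
    ((1 + v ^ 2) ^ k)⁻¹ * ‖f (ofComplex (arcPoint p.1 (max p.2 (1 / 64)) v))‖ ^ 2

theorem continuous_arc (f : CuspForm (Gamma0 N) (k : ℤ)) {X : Type*} [TopologicalSpace X]
    {x ρ v : X → ℝ} (hx : Continuous x) (hη : Continuous ρ) (hv : Continuous v)
    (hpos : ∀ t, 0 < ρ t) :
    Continuous fun t => f (ofComplex (arcPoint (x t) (ρ t) (v t))) := by
  refine (ModularFormClass.holo f).continuous.comp
    (UpperHalfPlane.isEmbedding_coe.continuous_iff.2 ?_)
  refine Continuous.congr (f := fun t => arcPoint (x t) (ρ t) (v t)) ?_ fun t => ?_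
  · exact (continuous_ofReal.comp hx).sub (continuous_const.div
      ((continuous_ofReal.comp hη).mul ((continuous_ofReal.comp hv).add continuous_const))
      fun t => mul_ne_zero (ofReal_ne_zero.2 (hpos t).ne') (Poincare.pt_ne_zero one_pos))
  · simp [ofComplex_apply_of_im_pos (arcPoint_im_pos (x t) (hpos t) (v t))]

theorem continuous_localIntegrand (f : CuspForm (Gamma0 N) (k : ℤ)) :
    Continuous (Function.uncurry fun (p : ℝ × ℝ) (v : ℝ) =>
      ((1 + v ^ 2) ^ k)⁻¹ * ‖f (ofComplex (arcPoint p.1 (max p.2 (1 / 64)) v))‖ ^ 2) := by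
  have hw : Continuous fun q : (ℝ × ℝ) × ℝ => ((1 + q.2 ^ 2) ^ k)⁻¹ :=
    Continuous.inv₀ (by fun_prop) fun q => by positivity
  exact hw.mul ((continuous_arc f (x := fun q : (ℝ × ℝ) × ℝ => q.1.1)
    (ρ := fun q => max q.1.2 (1 / 64)) (v := fun q => q.2) (by fun_prop) (by fun_prop)
    (by fun_prop) fun q => lt_max_of_lt_right (by norm_num)).norm.pow 2)

theorem continuous_localMass (f : CuspForm (Gamma0 N) (k : ℤ)) : Continuous (localMass f) :=
  intervalIntegral.continuous_parametric_intervalIntegral_of_continuous'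
    (continuous_localIntegrand f) _ _

theorem localMass_pos {f : CuspForm (Gamma0 N) (k : ℤ)} (hf : f ≠ 0) (p : ℝ × ℝ) :
    0 < localMass f p := by
  set x := p.1
  set ρ := max p.2 (1 / 64)
  have hη : 0 < ρ := lt_max_of_lt_right (by norm_num)
  by_contra hle
  have hcont : Continuous fun v : ℝ =>
      ((1 + v ^ 2) ^ k)⁻¹ * ‖f (ofComplex (arcPoint x ρ v))‖ ^ 2 :=
    (continuous_localIntegrand f).comp (Continuous.prodMk_right p)
  have hnn : ∀ v : ℝ, 0 ≤ ((1 + v ^ 2) ^ k)⁻¹ * ‖f (ofComplex (arcPoint x ρ v))‖ ^ 2 := fun v => by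
    positivity
  have hzero : ∀ v ∈ Set.Icc (-1 : ℝ) 1, f (ofComplex (arcPoint x ρ v)) = 0 := by
    intro v hv
    by_contra hne
    refine hle (intervalIntegral.integral_pos (by norm_num) hcont.continuousOn
      (fun t _ => hnn t) ⟨v, hv, ?_⟩)
    have : 0 < ‖f (ofComplex (arcPoint x ρ v))‖ := norm_pos_iff.2 hne
    positivity
  set U : Set ℂ := {w | 0 < w.im}
  have hU : IsPreconnected U := (convex_halfSpace_im_gt 0).isPreconnected
  have han : AnalyticOnNhd ℂ (fun w => f (ofComplex w)) U :=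
    (UpperHalfPlane.mdifferentiable_iff.1 (ModularFormClass.holo f)).analyticOnNhd
      (isOpen_lt continuous_const Complex.continuous_im)
  have hφ : ContinuousAt (fun v => arcPoint x ρ v) 0 := by
    refine ContinuousAt.sub continuousAt_const (continuousAt_const.div
      (continuousAt_const.mul ?_) (mul_ne_zero (ofReal_ne_zero.2 hη.ne')
        (Poincare.pt_ne_zero one_pos)))
    unfold Poincare.pt
    fun_prop
  have hinj : ∀ v : ℝ, v ≠ 0 → arcPoint x ρ v ≠ arcPoint x ρ 0 := by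
    intro v hv h
    have h' : (ρ : ℂ) * Poincare.pt v 1 = ρ * Poincare.pt 0 1 := by
      simpa [arcPoint] using h
    have := congrArg Complex.re (mul_left_cancel₀ (ofReal_ne_zero.2 hη.ne') h')
    simp [Poincare.pt] at this
    exact hv this
  have htend : Tendsto (fun v => arcPoint x ρ v) (𝓝[≠] 0) (𝓝[≠] (arcPoint x ρ 0)) :=
    tendsto_nhdsWithin_iff.2 ⟨hφ.mono_left nhdsWithin_le_nhds,
      eventually_nhdsWithin_of_forall fun v hv => hinj v hv⟩
  have hfr : ∃ᶠ w in 𝓝[≠] (arcPoint x ρ 0), f (ofComplex w) = 0 := by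
    refine htend.frequently (Eventually.frequently ?_)
    filter_upwards [nhdsWithin_le_nhds (Icc_mem_nhds (by norm_num : (-1 : ℝ) < 0)
      (by norm_num : (0 : ℝ) < 1))] with v hv using hzero v hv
  have hz := han.eqOn_zero_of_preconnected_of_frequently_eq_zero hU (arcPoint_im_pos x hη 0) hfr
  refine hf (DFunLike.ext _ _ fun z => ?_)
  have h := hz (show (z : ℂ) ∈ U from z.im_pos)
  simpa using h

theorem interval_mass (f : CuspForm (Gamma0 N) (k : ℤ)) (he : Even k) {c : ℕ} (hc : c ≠ 0)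
    (hN : N ∣ c) {a d : ℤ} (had : (c : ℤ) ∣ a * d - 1) {y : ℝ} (hy : 0 < y)
    (hη : 1 / 64 ≤ (c : ℝ) ^ 2 * y) :
    ∫ u in ((a : ℝ) / c - y)..((a : ℝ) / c + y), ‖f (ofComplex (u + y * I))‖ ^ 2 =
      y * ((y ^ k * ((c : ℝ) ^ 2 * y) ^ k)⁻¹ * localMass f (-(d : ℝ) / c, (c : ℝ) ^ 2 * y)) := by
  have h1 := intervalIntegral.smul_integral_comp_mul_add (a := (-1 : ℝ)) (b := 1)
    (fun u : ℝ => ‖f (ofComplex (u + y * I))‖ ^ 2) y ((a : ℝ) / c)
  rw [show y * (-1) + (a : ℝ) / c = a / c - y by ring,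
    show y * 1 + (a : ℝ) / c = a / c + y by ring, smul_eq_mul] at h1
  rw [← h1, localMass, max_eq_left hη]
  congr 1
  rw [← intervalIntegral.integral_const_mul]
  refine intervalIntegral.integral_congr fun v _ => ?_
  set τ : ℂ := (y : ℂ) * Poincare.pt v 1 with hτ
  have hτim : 0 < τ.im := by simp [hτ, Poincare.pt, hy]
  have hyC : (y : ℂ) ≠ 0 := ofReal_ne_zero.2 hy.ne'
  rw [show ((y * v + (a : ℝ) / c : ℝ) : ℂ) + y * I = (a : ℂ) / c + τ by
      simp [hτ, Poincare.pt]; ring,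
    VoronoiSummation.modular_point f he hc hN had hτim,
    show -(d : ℂ) / c - 1 / ((c : ℂ) ^ 2 * τ) = arcPoint (-(d : ℝ) / c) ((c : ℝ) ^ 2 * y) v by
      simp [hτ, arcPoint]; ring,
    norm_mul, mul_pow]
  simp only [← mul_assoc]
  congr 1
  have hn : ‖Poincare.pt v 1‖ ^ 2 = 1 + v ^ 2 := by
    rw [Complex.norm_def, Poincare.normSq_pt, Real.sq_sqrt (by positivity)]
    ring
  rw [norm_inv, norm_pow, inv_pow, ← pow_mul, mul_comm k, pow_mul, norm_mul, norm_mul,
    Complex.norm_natCast, norm_real, Real.norm_of_nonneg hy.le,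
    show ((c : ℝ) * (y * ‖Poincare.pt v 1‖)) ^ 2 = (c : ℝ) ^ 2 * y ^ 2 * ‖Poincare.pt v 1‖ ^ 2 by
      ring, hn, ← mul_inv]
  simp only [mul_pow]
  ring_nf

variable [NeZero N]

theorem hasSum_parseval (f : CuspForm (Gamma0 N) (k : ℤ)) {y : ℝ} (hy : 0 < y) :
    HasSum (fun n : ℕ => ‖(qExpansion 1 f).coeff n‖ ^ 2 * Real.exp (-(4 * π * n * y)))
      (∫ x in (0 : ℝ)..1, ‖f (ofComplex (x + y * I))‖ ^ 2) := by
  obtain ⟨C, hC0, hC⟩ := VoronoiSummation.norm_point_le f
  obtain ⟨B, -, hB⟩ := VoronoiSummation.exp_majorant f (σ := |((k : ℤ) : ℝ)| + 2) (by positivity)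
    (by linarith [le_abs_self ((k : ℤ) : ℝ), abs_nonneg ((k : ℤ) : ℝ)])
  set g : ℝ → ℂ := fun x => f (ofComplex (x + y * I))
  have hgc : Continuous g := VoronoiSummation.continuous_line f hy
  set F : ℕ → ℝ → ℂ := fun n x =>
    (qExpansion 1 f).coeff n * cexp (2 * π * I * (x + y * I)) ^ n * (starRingEnd ℂ) (g x) with hF
  have hnorm : ∀ n x, ‖F n x‖ =
      ‖(qExpansion 1 f).coeff n‖ * Real.exp (-(2 * π * y * n)) * ‖g x‖ := fun n x => by
    simp only [hF, norm_mul, norm_pow, Complex.norm_exp, Complex.norm_conj, ← Real.exp_nat_mul]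
    congr 3
    simp [mul_re, mul_im]
    ring
  have h := intervalIntegral.hasSum_integral_of_dominated_convergence (a := (0 : ℝ)) (b := 1)
    (μ := volume) (F := F) (f := fun x => g x * (starRingEnd ℂ) (g x))
    (fun n _ => ‖(qExpansion 1 f).coeff n‖ * Real.exp (-(2 * π * y * n)) *
      (C * y ^ (-((k : ℤ) : ℝ) / 2)))
    (fun n => (Continuous.mul (by fun_prop)
      (Complex.continuous_conj.comp hgc)).aestronglyMeasurable)
    (fun n => Eventually.of_forall fun x _ => (hnorm n x).trans_le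
      (mul_le_mul_of_nonneg_left (hC y hy x) (by positivity)))
    (Eventually.of_forall fun _ _ => (hB (2 * π * y) (by positivity)).1.mul_right _)
    intervalIntegrable_const
    (Eventually.of_forall fun x _ =>
      (VoronoiSummation.hasSum_point f _ (by simpa using hy)).mul_right _)
  have hI : ∀ n : ℕ, (∫ x in (0 : ℝ)..1, F n x) =
      ((‖(qExpansion 1 f).coeff n‖ ^ 2 * Real.exp (-(4 * π * n * y)) : ℝ) : ℂ) := by
    intro n
    have hc := congrArg (starRingEnd ℂ) (VoronoiSummation.coeff_eq_integral f n hy)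
    rw [map_mul, Complex.conj_ofReal] at hc
    have e : ∀ x : ℝ, F n x = (qExpansion 1 f).coeff n * (Real.exp (-(2 * π * n * y)) : ℂ) *
        (starRingEnd ℂ) (g x * cexp (-(2 * π * I * n * x))) := by
      intro x
      simp only [hF, map_mul, ← Complex.exp_conj, ← Complex.exp_nat_mul]
      have hx : (starRingEnd ℂ) (-(2 * π * I * n * x)) = 2 * π * I * n * x := by simp [map_ofNat]
      rw [hx, ofReal_exp, mul_assoc _ (cexp _) (_ * _), mul_left_comm (cexp _) _ (cexp _),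
        ← Complex.exp_add, mul_left_comm, mul_assoc]
      congr 1
      rw [mul_comm (cexp _)]
      congr 2
      push_cast
      linear_combination (2 * π * n * y : ℂ) * I_sq
    have hexp : Real.exp (2 * π * n * y) ≠ 0 := Real.exp_ne_zero _
    simp only [e, intervalIntegral.integral_const_mul]
    rw [intervalIntegral.integral_of_le zero_le_one, integral_conj]
    rw [← intervalIntegral.integral_of_le zero_le_one,
      show (starRingEnd ℂ) (∫ x in (0 : ℝ)..1, g x * cexp (-(2 * π * I * n * x))) =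
      (starRingEnd ℂ) ((qExpansion 1 f).coeff n) * ((Real.exp (2 * π * n * y) : ℝ) : ℂ)⁻¹ by
      rw [eq_mul_inv_iff_mul_eq₀ (ofReal_ne_zero.2 hexp), hc, mul_comm]]
    rw [show Real.exp (-(4 * π * n * y)) =
        Real.exp (-(2 * π * n * y)) * (Real.exp (2 * π * n * y))⁻¹ by
      rw [← Real.exp_neg, ← Real.exp_add]; ring_nf]
    push_cast
    rw [← Complex.mul_conj']
    ring
  simp only [hI] at h
  have hreal : (∫ x in (0 : ℝ)..1, g x * (starRingEnd ℂ) (g x)) =
      ((∫ x in (0 : ℝ)..1, ‖g x‖ ^ 2 : ℝ) : ℂ) := by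
    rw [← intervalIntegral.integral_ofReal]
    exact intervalIntegral.integral_congr fun x _ => by
      simp [Complex.mul_conj']
  rw [hreal] at h
  exact Complex.hasSum_ofReal.1 h

theorem parseval_lower {f : CuspForm (Gamma0 N) (k : ℤ)} (hf : f ≠ 0) :
    ∃ δ y₀ : ℝ, 0 < δ ∧ 0 < y₀ ∧ ∀ y : ℝ, 0 < y → y ≤ y₀ →
      δ * (y ^ k)⁻¹ ≤ ∫ x in (0 : ℝ)..1, ‖f (ofComplex (x + y * I))‖ ^ 2 := by
  classical
  have he := even_of_ne_zero hf
  obtain ⟨p, -, hmin⟩ := (isCompact_Icc.prod isCompact_Icc).exists_isMinOn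
    (s := Set.Icc (-1 : ℝ) 0 ×ˢ Set.Icc (1 / 64 : ℝ) 1)
    (Set.nonempty_Icc.2 (by norm_num) |>.prod (Set.nonempty_Icc.2 (by norm_num)))
    (continuous_localMass f).continuousOn
  set μ := localMass f p with hμ
  have hμ0 : 0 < μ := localMass_pos hf p
  obtain ⟨M₀, hM₀⟩ := eventually_atTop.1 eventually_sum_totient_ge
  have hN : (0 : ℝ) < N := Nat.cast_pos.2 (NeZero.pos N)
  refine ⟨μ / (512 * (N : ℝ) ^ 2), (1 / (4 * N * ((M₀ : ℝ) + 2))) ^ 2, by positivity,
    by positivity, fun y hy hy0 => ?_⟩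
  set s := √y with hs
  have hs0 : 0 < s := Real.sqrt_pos.2 hy
  have hs2 : s ^ 2 = y := Real.sq_sqrt hy.le
  set T : ℝ := 1 / (4 * N * s) with hT
  have hTM : (M₀ : ℝ) + 2 ≤ T := by
    have h1 : s ≤ 1 / (4 * N * ((M₀ : ℝ) + 2)) := by
      rw [hs]
      refine (Real.sqrt_le_sqrt hy0).trans_eq (Real.sqrt_sq (by positivity))
    rw [hT, le_div_iff₀ (by positivity)]
    rw [le_div_iff₀ (by positivity)] at h1
    linarith
  set M := ⌊T⌋₊ with hM
  have hTpos : 0 < T := by positivity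
  have hMle : (M : ℝ) ≤ T := Nat.floor_le hTpos.le
  have hMlt : T < (M : ℝ) + 1 := Nat.lt_floor_add_one T
  have hMhalf : T / 2 ≤ (M : ℝ) := by
    have : (0 : ℝ) ≤ M₀ := Nat.cast_nonneg _
    linarith
  have hMM₀ : M₀ ≤ M := Nat.le_floor (by linarith)
  have hM1 : 1 ≤ M := Nat.le_floor (by push_cast; linarith [(Nat.cast_nonneg M₀ : (0 : ℝ) ≤ M₀)])
  have hMs : (N : ℝ) * M * s ≤ 1 / 4 ∧ 1 / 8 ≤ (N : ℝ) * M * s := by
    have e : (N : ℝ) * T * s = 1 / 4 := by rw [hT]; field_simp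
    constructor
    · rw [← e]; gcongr
    · calc (1 / 8 : ℝ) = (N : ℝ) * (T / 2) * s := by linear_combination (-1 / 2 : ℝ) * e
        _ ≤ _ := by gcongr
  set S : Finset (ℕ × ℕ) := (Finset.Ioc M (2 * M)).biUnion fun m =>
    ((Finset.range (N * m)).filter fun a => (N * m).Coprime a).map
      ⟨fun a => (N * m, a), Prod.mk_right_injective _⟩ with hS
  have hmem : ∀ q ∈ S, N * M < q.1 ∧ q.1 ≤ 2 * (N * M) ∧ N ∣ q.1 ∧ 0 < q.2 ∧ q.2 < q.1 ∧
      q.1.Coprime q.2 := by
    intro q hq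
    simp only [hS, Finset.mem_biUnion, Finset.mem_map, Finset.mem_filter, Finset.mem_range,
      Finset.mem_Ioc] at hq
    obtain ⟨m, ⟨hm1, hm2⟩, a, ⟨ha, hco⟩, rfl⟩ := hq
    simp only [Function.Embedding.coeFn_mk]
    refine ⟨Nat.mul_lt_mul_of_pos_left hm1 (NeZero.pos N),
      (Nat.mul_le_mul_left N hm2).trans_eq (by ring), dvd_mul_right N m, ?_, ha, hco⟩
    rcases Nat.eq_zero_or_pos a with rfl | h
    · rw [Nat.coprime_zero_right] at hco
      have h2 : 2 ≤ N * m := (show 2 ≤ m by omega).trans (Nat.le_mul_of_pos_left m (NeZero.pos N))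
      omega
    · exact h
  have hcard : (M : ℝ) ^ 2 / 8 ≤ (S.card : ℝ) := by
    refine (hM₀ M hMM₀).trans ?_
    rw [hS, Finset.card_biUnion]
    · push_cast
      refine Finset.sum_le_sum fun m hm => ?_
      rw [Finset.card_map]
      rw [← Nat.totient_eq_card_coprime]
      have hm0 : 0 < m := by simp only [Finset.mem_Ioc] at hm; omega
      exact_mod_cast Nat.le_of_dvd (Nat.totient_pos.2 (Nat.mul_pos (NeZero.pos N) hm0))
        (Nat.totient_dvd_of_dvd (dvd_mul_left m N))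
    · intro m _ m' _ hne
      simp only [Function.onFun, Finset.disjoint_left, Finset.mem_map, Function.Embedding.coeFn_mk]
      rintro q ⟨a, -, rfl⟩ ⟨b, -, h⟩
      exact hne (Nat.eq_of_mul_eq_mul_left (NeZero.pos N) (congrArg Prod.fst h).symm)
  set g : ℝ → ℝ := fun u => ‖f (ofComplex (u + y * I))‖ ^ 2 with hg
  have hgc : Continuous g := (VoronoiSummation.continuous_line f hy).norm.pow 2
  set I' : ℕ × ℕ → Set ℝ := fun q => Set.Ioc ((q.2 : ℝ) / q.1 - y) ((q.2 : ℝ) / q.1 + y) with hI'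
  have hbig : ∀ q ∈ S, (q.1 : ℝ) * s ≤ 1 / 2 ∧ 1 / 8 ≤ (q.1 : ℝ) * s := by
    intro q hq
    obtain ⟨h1, h2, -⟩ := hmem q hq
    have h1' : (N : ℝ) * M ≤ q.1 := by exact_mod_cast h1.le
    have h2' : (q.1 : ℝ) ≤ 2 * (N * M) := by exact_mod_cast h2
    exact ⟨(mul_le_mul_of_nonneg_right h2' hs0.le).trans (by linarith [hMs.1]),
      hMs.2.trans (mul_le_mul_of_nonneg_right h1' hs0.le)⟩
  have hdisj : (S : Set (ℕ × ℕ)).Pairwise (Function.onFun Disjoint I') := by
    intro q hq r hr hne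
    obtain ⟨-, -, -, hq0, hqlt, hqc⟩ := hmem q hq
    obtain ⟨-, -, -, hr0, hrlt, hrc⟩ := hmem r hr
    have hq1 : (0 : ℝ) < q.1 := by exact_mod_cast (hq0.trans hqlt)
    have hr1 : (0 : ℝ) < r.1 := by exact_mod_cast (hr0.trans hrlt)
    have hz : (q.2 : ℤ) * r.1 - r.2 * q.1 ≠ 0 := by
      intro h
      have h' : q.2 * r.1 = r.2 * q.1 := by exact_mod_cast sub_eq_zero.1 h
      have d1 : q.1 ∣ r.1 := hqc.dvd_of_dvd_mul_left ⟨r.2, by rw [h', mul_comm]⟩
      have d2 : r.1 ∣ q.1 := hrc.dvd_of_dvd_mul_left ⟨q.2, by rw [← h', mul_comm]⟩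
      have heq := Nat.dvd_antisymm d1 d2
      rw [← heq] at h'
      exact hne (Prod.ext heq (Nat.eq_of_mul_eq_mul_right (hq0.trans hqlt) h'))
    have habs : (1 : ℝ) ≤ |(q.2 : ℝ) * r.1 - r.2 * q.1| := by exact_mod_cast Int.one_le_abs hz
    rw [Function.onFun, Set.disjoint_left]
    rintro u ⟨a1, a2⟩ ⟨b1, b2⟩
    have hlt : |(q.2 : ℝ) / q.1 - (r.2 : ℝ) / r.1| < 2 * y := abs_lt.2 ⟨by linarith, by linarith⟩
    rw [div_sub_div _ _ hq1.ne' hr1.ne', abs_div, abs_of_pos (mul_pos hq1 hr1),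
      div_lt_iff₀ (mul_pos hq1 hr1), mul_comm (q.1 : ℝ) (r.2 : ℝ)] at hlt
    have h4 : (q.1 : ℝ) * s * ((r.1 : ℝ) * s) ≤ 1 / 2 * (1 / 2) :=
      mul_le_mul (hbig q hq).1 (hbig r hr).1 (by positivity) (by norm_num)
    rw [← hs2] at hlt
    nlinarith
  have hsub : (⋃ q ∈ S, I' q) ⊆ Set.Ioc (0 : ℝ) 1 := by
    refine Set.iUnion₂_subset fun q hq => Set.Ioc_subset_Ioc ?_ ?_
    all_goals
      obtain ⟨-, -, -, hq0, hqlt, -⟩ := hmem q hq
      have hq1 : (0 : ℝ) < q.1 := by exact_mod_cast (hq0.trans hqlt)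
      have h1 : (1 : ℝ) ≤ q.2 := by exact_mod_cast hq0
      have h2 : (q.2 : ℝ) + 1 ≤ q.1 := by exact_mod_cast hqlt
      have hy1 : y * q.1 ≤ 1 := by
        rw [← hs2]
        nlinarith [(hbig q hq).1, (hbig q hq).2]
    · rw [sub_nonneg, le_div_iff₀ hq1]; linarith
    · rw [← le_sub_iff_add_le, div_le_iff₀ hq1]; linarith
  have hone : ∀ q ∈ S, y * ((y ^ k)⁻¹ * μ) ≤ ∫ u in I' q, g u := by
    intro q hq
    obtain ⟨-, -, hdvd, hq0, hqlt, hco⟩ := hmem q hq
    have hq1 : (0 : ℝ) < q.1 := by exact_mod_cast (hq0.trans hqlt)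
    have : NeZero q.1 := ⟨(hq0.trans hqlt).ne'⟩
    set d : ℕ := (((q.2 : ZMod q.1))⁻¹).val with hd
    have had : (q.1 : ℤ) ∣ (q.2 : ℤ) * d - 1 := by
      refine (ZMod.intCast_zmod_eq_zero_iff_dvd _ _).1 ?_
      push_cast
      rw [hd, ZMod.natCast_zmod_val, ZMod.coe_mul_inv_eq_one _ hco.symm, sub_self]
    have hη1 : 1 / 64 ≤ (q.1 : ℝ) ^ 2 * y := by
      rw [← hs2, ← mul_pow]
      nlinarith [(hbig q hq).2]
    have hη2 : (q.1 : ℝ) ^ 2 * y ≤ 1 := by
      rw [← hs2, ← mul_pow]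
      nlinarith [(hbig q hq).1, mul_nonneg hq1.le hs0.le]
    have h := interval_mass f he (hq0.trans hqlt).ne' hdvd had hy hη1
    simp only [Int.cast_natCast] at h
    rw [intervalIntegral.integral_of_le (by linarith)] at h
    rw [h]
    refine mul_le_mul_of_nonneg_left (mul_le_mul ?_ ?_ hμ0.le (by positivity)) hy.le
    · refine inv_anti₀ (by positivity) (mul_le_of_le_one_right (by positivity) ?_)
      exact pow_le_one₀ (by positivity) hη2
    · refine hmin ⟨⟨?_, ?_⟩, hη1, hη2⟩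
      · rw [le_div_iff₀ hq1]
        have : (d : ℝ) ≤ q.1 := by exact_mod_cast (ZMod.val_lt _).le
        linarith
      · exact div_nonpos_of_nonpos_of_nonneg (neg_nonpos.2 (Nat.cast_nonneg d)) hq1.le
  rw [intervalIntegral.integral_of_le zero_le_one]
  refine le_trans ?_ (setIntegral_mono_set (s := ⋃ q ∈ S, I' q) hgc.integrableOn_Ioc
    (Eventually.of_forall fun u => by positivity) hsub.eventuallyLE)
  rw [integral_biUnion_finset S (fun q _ => measurableSet_Ioc) hdisj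
    fun q _ => hgc.integrableOn_Ioc]
  refine le_trans ?_ (Finset.card_nsmul_le_sum _ _ _ hone)
  rw [nsmul_eq_mul]
  calc μ / (512 * (N : ℝ) ^ 2) * (y ^ k)⁻¹
      = (1 / 8) ^ 2 / ((N : ℝ) ^ 2 * s ^ 2) / 8 * (y * ((y ^ k)⁻¹ * μ)) := by
        rw [hs2]; field_simp; ring
    _ ≤ (M : ℝ) ^ 2 / 8 * (y * ((y ^ k)⁻¹ * μ)) := by
        gcongr
        rw [div_le_iff₀ (by positivity)]
        calc (1 / 8 : ℝ) ^ 2 ≤ ((N : ℝ) * M * s) ^ 2 := pow_le_pow_left₀ (by norm_num) hMs.2 2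
          _ = _ := by ring
    _ ≤ _ := by gcongr

theorem mean_square_lower {f : CuspForm (Gamma0 N) (k : ℤ)} (hf : f ≠ 0) :
    ∃ c : ℝ, 0 < c ∧ ∀ᶠ M : ℕ in atTop,
      c * (M : ℝ) ^ k ≤ ∑ n ∈ Finset.Icc 1 M, ‖(qExpansion 1 f).coeff n‖ ^ 2 := by
  obtain ⟨δ, y₀, hδ, hy₀, hlow⟩ := parseval_lower hf
  obtain ⟨B, hB0, hB⟩ := VoronoiSummation.parseval_bound f
  obtain ⟨R, hR, hRpos⟩ : ∃ R : ℝ, Real.exp (-(2 * π * R)) * (B * 2 ^ k) ≤ δ / 2 ∧ 0 < R := by
    have h : Tendsto (fun R : ℝ => Real.exp (-(2 * π * R)) * (B * 2 ^ k)) atTop (𝓝 0) := by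
      simpa using ((Real.tendsto_exp_atBot.comp (tendsto_neg_atTop_atBot.comp
        (tendsto_id.const_mul_atTop (by positivity : (0 : ℝ) < 2 * π)))).mul_const (B * 2 ^ k))
    exact ((h.eventually (ge_mem_nhds (half_pos hδ))).and (eventually_gt_atTop 0)).exists
  refine ⟨δ / 2 / R ^ k, by positivity, ?_⟩
  filter_upwards [eventually_ge_atTop (max 1 ⌈R / y₀⌉₊)] with M hM
  have hM0 : (0 : ℝ) < M := Nat.cast_pos.2 (lt_of_lt_of_le one_pos ((le_max_left _ _).trans hM))
  set y := R / (M : ℝ) with hy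
  have hy0 : 0 < y := by positivity
  have hyy : y ≤ y₀ := by
    rw [hy, div_le_iff₀ hM0, mul_comm, ← div_le_iff₀ hy₀]
    exact (Nat.le_ceil _).trans (by exact_mod_cast (le_max_right _ _).trans hM)
  set a : ℕ → ℝ := fun n => ‖(qExpansion 1 f).coeff n‖ ^ 2
  have hs := hasSum_parseval f hy0
  have h := hlow y hy0 hyy
  rw [← hs.tsum_eq, ← hs.summable.sum_add_tsum_compl (s := Finset.range (M + 1))] at h
  have hhead : ∑ n ∈ Finset.range (M + 1), a n * Real.exp (-(4 * π * n * y)) ≤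
      ∑ n ∈ Finset.Icc 1 M, a n := by
    rw [← Finset.sum_subset (s₁ := Finset.Icc 1 M) (s₂ := Finset.range (M + 1)) (fun n hn => by
      rw [Finset.mem_Icc] at hn; exact Finset.mem_range.2 (by omega)) (fun n hn hn' => by
      rw [Finset.mem_range] at hn
      rw [Finset.mem_Icc] at hn'
      simp [a, show n = 0 by omega, VoronoiSummation.coeff_zero])]
    exact Finset.sum_le_sum fun n _ => mul_le_of_le_one_right (sq_nonneg _)
      (Real.exp_le_one_iff.2 (neg_nonpos.2 (by positivity)))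
  have htail : ∑' n : ↥((↑(Finset.range (M + 1)) : Set ℕ)ᶜ),
      a n * Real.exp (-(4 * π * (n : ℕ) * y)) ≤ δ / 2 * (y ^ k)⁻¹ := by
    refine Real.tsum_le_of_sum_le (fun n => by positivity) fun U => ?_
    calc ∑ n ∈ U, a n * Real.exp (-(4 * π * (n : ℕ) * y))
        ≤ ∑ n ∈ U, Real.exp (-(2 * π * R)) * (a n * Real.exp (-(4 * π * (n : ℕ) * (y / 2)))) := by
          refine Finset.sum_le_sum fun n _ => ?_
          rw [mul_left_comm, ← Real.exp_add]
          refine mul_le_mul_of_nonneg_left (Real.exp_le_exp.2 ?_) (sq_nonneg _)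
          have hn : (M : ℝ) ≤ (n : ℕ) := by
            have h1 : ¬((n : ℕ) ∈ Finset.range (M + 1)) := n.2
            rw [Finset.mem_range] at h1
            exact_mod_cast (by omega : M ≤ (n : ℕ))
          have : R ≤ (n : ℕ) * y := by
            rw [hy, mul_div_assoc', le_div_iff₀ hM0, mul_comm]
            exact mul_le_mul_of_nonneg_right hn hRpos.le
          nlinarith [Real.pi_pos]
      _ ≤ Real.exp (-(2 * π * R)) * (B * (y / 2) ^ (-((k : ℤ) : ℝ))) := by
          rw [← Finset.mul_sum]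
          refine mul_le_mul_of_nonneg_left ?_ (Real.exp_pos _).le
          have h2 := hB (y / 2) (by positivity) (U.map (Function.Embedding.subtype _))
          rw [Finset.sum_map] at h2
          exact h2
      _ = Real.exp (-(2 * π * R)) * (B * 2 ^ k) * (y ^ k)⁻¹ := by
          rw [Int.cast_natCast, Real.rpow_neg (by positivity), Real.rpow_natCast, div_pow]
          field_simp
      _ ≤ _ := mul_le_mul_of_nonneg_right hR (by positivity)
  calc δ / 2 / R ^ k * (M : ℝ) ^ k = δ / 2 * (y ^ k)⁻¹ := by rw [hy, div_pow]; field_simp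
    _ ≤ _ := by linarith

end FA.CoefficientSize

end
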